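import Fermat.Agent.S25.H566.BoxRing

/-!
# Row S25, block ABEL/DICT, leaf AB-UNIT: `Stmt.DictUnit`

The unit gluing datum is the gluing datum of sections of the unit line bundle:
`Corr Ch A (unit bundle over Spec A).L (GlueDatum.unit A (A ⊗ B₀) (A ⊗ B₁) (A ⊗ B₀₁))`.

Main results (namespace `Fermat.Agent.S25.H566`):
* `boxRingEquiv_res` : the ring isomorphisms `boxRingEquiv` commute with restriction;
* `unitSections`, `unitSections_smul`, `unitSections_res` : sections of the unit sheaf of modules
  are functions;
* `chart_isAffine₀₁`, `chart_i₀₁_str` : the intersection chart is affine, with compatible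
  `k`-structure;
* `dictUnit Ch` : the statement `Stmt.DictUnit Ch` of `H746/AbelDefs.lean`, unfolded.
-/

set_option autoImplicit false
universe u
open CategoryTheory CategoryTheory.Limits AlgebraicGeometry AlgebraicGeometry.RelPicard
  NeronModelInfra GoodReductionJacobian
open scoped TensorProduct

namespace Fermat.Agent.S25.H566

noncomputable section

variable {k : Type u} [Field k] {C : Scheme.{u}} {c : C ⟶ Spec (CommRingCat.of k)}
  {ε : SchemeHomOver (𝟙 (Spec (CommRingCat.of k))) c}

/-! ## Restriction of functions -/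

section Res

variable (A : Type u) [CommRing A] [Algebra k A]

theorem resRing_baseToSections {V V' : (pullback c (specStr k A)).Opens} (h : V' ≤ V) (a : A) :
    resRing h (baseToSections (c := c) A V a) = baseToSections (c := c) A V' a := by
  simp only [resRing, baseToSections, CommRingCat.hom_comp, RingHom.coe_comp,
    Function.comp_apply]
  rw [← CommRingCat.comp_apply, ← Functor.map_comp]
  rfl

theorem resRing_curveToSections {U U' : C.Opens} (h : U' ≤ U) (f : Γ(C, U)) :
    resRing (X := pullback c (specStr k A))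
        (show preimageOpen (c := c) A U' ≤ preimageOpen (c := c) A U from
          Scheme.Hom.preimage_mono _ h) (curveToSections (c := c) A U f) =
      curveToSections (c := c) A U' (resRing h f) := by
  simp only [resRing, curveToSections]
  rw [← CommRingCat.comp_apply, ← CommRingCat.comp_apply]
  congr 2
  exact ((pullback.fst c (specStr k A)).naturality (homOfLE h).op).symm

theorem sectionsStr_res {U U' : C.Opens} (h : U' ≤ U) (a : k) :
    resRing h (sectionsStr c U a) = sectionsStr c U' a := by
  simp only [resRing, sectionsStr, CommRingCat.hom_comp, RingHom.coe_comp,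
    Function.comp_apply]
  rw [← CommRingCat.comp_apply, ← Functor.map_comp]
  rfl

variable {A}

/-- The ring isomorphisms `boxRingEquiv` commute with restriction to a smaller chart. -/
theorem boxRingEquiv_res {U U' : C.Opens} (hU : IsAffineOpen U) (hU' : IsAffineOpen U')
    (h : U' ≤ U) {B B' : Type u} [CommRing B] [Algebra k B] [CommRing B'] [Algebra k B']
    [Algebra B B'] [IsScalarTower k B B']
    (i : Γ(C, U) ≃+* B) (hi : ∀ a : k, i (sectionsStr c U a) = algebraMap k B a)
    (i' : Γ(C, U') ≃+* B') (hi' : ∀ a : k, i' (sectionsStr c U' a) = algebraMap k B' a)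
    (hres : ∀ f : Γ(C, U), i' (resRing h f) = algebraMap B B' (i f)) (x : A ⊗[k] B) :
    resRing (X := pullback c (specStr k A))
        (show preimageOpen (c := c) A U' ≤ preimageOpen (c := c) A U from
          Scheme.Hom.preimage_mono _ h) (boxRingEquiv hU i hi x) =
      boxRingEquiv hU' i' hi' (tensorMapRight k A B B' x) := by
  induction x using TensorProduct.induction_on with
  | zero => simp
  | add x y hx hy => simp only [map_add, hx, hy]
  | tmul a b =>
    have hb : i'.symm (algebraMap B B' b) = resRing h (i.symm b) := by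
      rw [RingEquiv.symm_apply_eq, hres, RingEquiv.apply_symm_apply]
    have ht : tensorMapRight k A B B' (a ⊗ₜ[k] b) = a ⊗ₜ[k] algebraMap B B' b := by
      simp [tensorMapRight]
    rw [ht, boxRingEquiv_tmul, boxRingEquiv_tmul, map_mul, resRing_baseToSections,
      resRing_curveToSections, hb]

end Res

/-! ## Sections of the unit sheaf of modules -/

section UnitSections

variable {X : Scheme.{u}}

/-- The unit sheaf of modules, as an object of `X.Modules`. -/
abbrev unitModule (X : Scheme.{u}) : X.Modules := SheafOfModules.unit X.ringCatSheaf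

/-- Sections of the unit sheaf of modules are functions. -/
def unitSections (V : X.Opens) : Γ(unitModule X, V) ≃+ Γ(X, V) := AddEquiv.refl _

theorem unitSections_smul (V : X.Opens) (r : Γ(X, V)) (s : Γ(unitModule X, V)) :
    unitSections V (r • s) = r * unitSections V s := rfl

theorem unitSections_res {V W : X.Opens} (h : W ≤ V) (s : Γ(unitModule X, V)) :
    unitSections W (resMod (unitModule X) h s) = resRing h (unitSections V s) := rfl

end UnitSections

/-! ## The intersection chart -/

section Chart

variable (Ch : ChartOf c ε)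

theorem chart_isAffine₀₁ : IsAffineOpen (Ch.U₀ ⊓ Ch.U₁) := by
  rw [Ch.inf_eq₀]
  exact Ch.isAffine₀.basicOpen _

theorem chart_i₀₁_str (a : k) :
    Ch.i₀₁ (sectionsStr c (Ch.U₀ ⊓ Ch.U₁) a) = algebraMap k Ch.B₀₁ a := by
  rw [← sectionsStr_res (c := c) (inf_le_left : Ch.U₀ ⊓ Ch.U₁ ≤ Ch.U₀), Ch.i₀₁_res₀, Ch.i₀_str,
    ← IsScalarTower.algebraMap_apply]

end Chart

/-! ## The unit bundle and the unit gluing datum -/

section Unit

variable (Ch : ChartOf c ε) (A : Type u) [CommRing A] [Algebra k A]

/-- Sections of the unit bundle over the preimage of an affine chart, identified with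
`A ⊗[k] B`. -/
def unitChartEquiv {U : C.Opens} (hU : IsAffineOpen U) {B : Type u} [CommRing B] [Algebra k B]
    (i : Γ(C, U) ≃+* B) (hi : ∀ a : k, i (sectionsStr c U a) = algebraMap k B a) :
    Γ(unitModule (pullback c (specStr k A)), preimageOpen (c := c) A U) ≃+ A ⊗[k] B :=
  (unitSections _).trans (boxRingEquiv (A := A) hU i hi).symm.toAddEquiv

theorem unitChartEquiv_apply {U : C.Opens} (hU : IsAffineOpen U) {B : Type u} [CommRing B]
    [Algebra k B] (i : Γ(C, U) ≃+* B) (hi : ∀ a : k, i (sectionsStr c U a) = algebraMap k B a)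
    (s : Γ(unitModule (pullback c (specStr k A)), preimageOpen (c := c) A U)) :
    unitChartEquiv A hU i hi s = (boxRingEquiv (A := A) hU i hi).symm (unitSections _ s) := rfl

theorem isSectionsIso_unitChartEquiv {U : C.Opens} (hU : IsAffineOpen U) {B : Type u}
    [CommRing B] [Algebra k B] (i : Γ(C, U) ≃+* B)
    (hi : ∀ a : k, i (sectionsStr c U a) = algebraMap k B a) :
    IsSectionsIso A (unitModule (pullback c (specStr k A))) U i (unitChartEquiv A hU i hi) := by
  refine ⟨fun a s => ?_, fun f s => ?_⟩
  · rw [unitChartEquiv_apply, unitChartEquiv_apply, unitSections_smul, map_mul,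
      boxRingEquiv_symm_baseToSections, smul_eq_mul]
  · rw [unitChartEquiv_apply, unitChartEquiv_apply, unitSections_smul, map_mul,
      boxRingEquiv_symm_curveToSections, smul_eq_mul]

theorem unitChartEquiv_res {U U' : C.Opens} (hU : IsAffineOpen U) (hU' : IsAffineOpen U')
    (h : U' ≤ U) {B B' : Type u} [CommRing B] [Algebra k B] [CommRing B'] [Algebra k B']
    [Algebra B B'] [IsScalarTower k B B']
    (i : Γ(C, U) ≃+* B) (hi : ∀ a : k, i (sectionsStr c U a) = algebraMap k B a)
    (i' : Γ(C, U') ≃+* B') (hi' : ∀ a : k, i' (sectionsStr c U' a) = algebraMap k B' a)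
    (hres : ∀ f : Γ(C, U), i' (resRing h f) = algebraMap B B' (i f))
    (s : Γ(unitModule (pullback c (specStr k A)), preimageOpen (c := c) A U)) :
    unitChartEquiv A hU' i' hi' (resMod (unitModule (pullback c (specStr k A)))
        (show preimageOpen (c := c) A U' ≤ preimageOpen (c := c) A U from
          Scheme.Hom.preimage_mono _ h) s) =
      tensorMapRight k A B B' (unitChartEquiv A hU i hi s) := by
  rw [unitChartEquiv_apply, unitChartEquiv_apply, unitSections_res, RingEquiv.symm_apply_eq,
    ← boxRingEquiv_res hU hU' h i hi i' hi' hres, RingEquiv.apply_symm_apply]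

/-- **AB-UNIT** (`Stmt.DictUnit Ch` of `H746/AbelDefs.lean`, unfolded): the unit gluing datum is
the gluing datum of sections of the unit bundle. -/
theorem dictUnit :
    Corr Ch A (RigidifiedLineBundle.unit (c := c) (ε := ε) (specStr k A)).L
      (GlueDatum.unit A (A ⊗[k] Ch.B₀) (A ⊗[k] Ch.B₁) (A ⊗[k] Ch.B₀₁)) := by
  refine ⟨unitChartEquiv A Ch.isAffine₀ Ch.i₀ Ch.i₀_str,
    unitChartEquiv A Ch.isAffine₁ Ch.i₁ Ch.i₁_str,
    unitChartEquiv A (chart_isAffine₀₁ Ch) Ch.i₀₁ (chart_i₀₁_str Ch),
    isSectionsIso_unitChartEquiv A _ _ _, isSectionsIso_unitChartEquiv A _ _ _,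
    isSectionsIso_unitChartEquiv A _ _ _, fun s => ?_, fun s => ?_⟩
  · exact unitChartEquiv_res A Ch.isAffine₀ (chart_isAffine₀₁ Ch) inf_le_left Ch.i₀ Ch.i₀_str Ch.i₀₁
      (chart_i₀₁_str Ch) Ch.i₀₁_res₀ s
  · exact unitChartEquiv_res A Ch.isAffine₁ (chart_isAffine₀₁ Ch) inf_le_right Ch.i₁ Ch.i₁_str Ch.i₀₁
      (chart_i₀₁_str Ch) Ch.i₀₁_res₁ s

end Unit

end

end Fermat.Agent.S25.H566
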