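import Fermat.Agent.S25.DefsDict

/-!
# Row S25, block DICT: the ring of functions on the preimage of an affine chart

For an affine open `U ⊆ C` with `i : Γ(C, U) ≃+* B` (compatible with the `k`-structure) and a
`k`-algebra `A`, the ring of sections of `C_A = pullback c (specStr k A)` over the preimage of
`U` is `A ⊗[k] B`:

* `boxRingEquiv : A ⊗[k] B ≃+* Γ(C_A, preimageOpen A U)`,
* `boxRingEquiv_tmul_one`, `boxRingEquiv_one_tmul`, `boxRingEquiv_tmul` (values on generators),
* `boxRingEquiv_res` (compatibility with restriction to a smaller affine chart).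
-/

set_option autoImplicit false
universe u
open CategoryTheory CategoryTheory.Limits AlgebraicGeometry AlgebraicGeometry.RelPicard
  NeronModelInfra GoodReductionJacobian
open scoped TensorProduct

namespace Fermat.Agent.S25.H566

noncomputable section

variable {k : Type u} [Field k] {C : Scheme.{u}} (c : C ⟶ Spec (CommRingCat.of k))
  (A : Type u) [CommRing A] [Algebra k A]

/-- The geometric pushout square: sections over the preimage of an affine open. -/
theorem isPushout_preimageOpen {U : C.Opens} (hU : IsAffineOpen U) :
    IsPushout (c.appLE ⊤ U le_top) ((specStr k A).appLE ⊤ ⊤ le_top)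
      ((pullback.fst c (specStr k A)).appLE U (preimageOpen (c := c) A U) le_rfl)
      ((pullback.snd c (specStr k A)).appLE ⊤ (preimageOpen (c := c) A U) le_top) :=
  (isIso_pushoutSection_iff (IsPullback.of_hasPullback c (specStr k A)) le_top le_top
    (by simp)).mp
    (isIso_pushoutSection_of_isAffineOpen (IsPullback.of_hasPullback c (specStr k A)) le_top
      le_top (by simp) (isAffineOpen_top _) (isAffineOpen_top _) hU)


variable {c A}

/-- `baseToSections` in terms of `appLE`. -/
theorem baseToSections_eq (V : (pullback c (specStr k A)).Opens) :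
    baseToSections (c := c) A V =
      ((Scheme.ΓSpecIso (CommRingCat.of A)).inv ≫
        (pullback.snd c (specStr k A)).appLE ⊤ V le_top).hom := rfl

/-- `curveToSections` in terms of `appLE`. -/
theorem curveToSections_eq (U : C.Opens) :
    curveToSections (c := c) A U =
      ((pullback.fst c (specStr k A)).appLE U (preimageOpen (c := c) A U) le_rfl).hom := by
  rw [curveToSections, Scheme.Hom.app_eq_appLE]

/-- `sectionsStr` in terms of `appLE`. -/
theorem sectionsStr_eq (U : C.Opens) :
    sectionsStr c U = ((Scheme.ΓSpecIso (CommRingCat.of k)).inv ≫ c.appLE ⊤ U le_top).hom := rfl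

section Equiv

variable {U : C.Opens} (hU : IsAffineOpen U) {B : Type u} [CommRing B] [Algebra k B]
  (i : Γ(C, U) ≃+* B) (hi : ∀ a : k, i (sectionsStr c U a) = algebraMap k B a)

include hU hi in
/-- The algebraic pushout square. -/
theorem isPushout_preimageOpen_alg :
    IsPushout (CommRingCat.ofHom (algebraMap k A)) (CommRingCat.ofHom (algebraMap k B))
      (CommRingCat.ofHom (baseToSections (c := c) A (preimageOpen (c := c) A U)))
      (CommRingCat.ofHom ((curveToSections (c := c) A U).comp i.symm.toRingHom)) := by
  refine ((isPushout_preimageOpen c A hU).of_iso (Scheme.ΓSpecIso (CommRingCat.of k))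
    i.toCommRingCatIso (Scheme.ΓSpecIso (CommRingCat.of A)) (Iso.refl _) ?_ ?_ ?_ ?_).flip
  · ext a
    obtain ⟨a, rfl⟩ : ∃ a' : k, (Scheme.ΓSpecIso (CommRingCat.of k)).inv a' = a :=
      ⟨(Scheme.ΓSpecIso (CommRingCat.of k)).hom a, by simp⟩
    have := hi a
    rw [sectionsStr_eq] at this
    simpa using this
  · exact Scheme.ΓSpecIso_naturality (CommRingCat.ofHom (algebraMap k A))
  · ext f
    simp [curveToSections_eq]
  · ext a
    simp [baseToSections_eq]

/-- **The ring of functions on the preimage of an affine chart** is `A ⊗[k] B`. -/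
def boxRingEquiv : A ⊗[k] B ≃+* Γ(pullback c (specStr k A), preimageOpen (c := c) A U) :=
  ((CommRingCat.isPushout_tensorProduct k A B).isoIsPushout _ _
    (isPushout_preimageOpen_alg hU i hi)).commRingCatIsoToRingEquiv

theorem boxRingEquiv_tmul_one (a : A) :
    boxRingEquiv hU i hi (a ⊗ₜ[k] (1 : B)) =
      baseToSections (c := c) A (preimageOpen (c := c) A U) a := by
  have := (CommRingCat.isPushout_tensorProduct k A B).inl_isoIsPushout_hom _ _
    (isPushout_preimageOpen_alg (c := c) (A := A) hU i hi)
  exact congrArg (fun φ : CommRingCat.of A ⟶ _ => φ.hom a) this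

theorem boxRingEquiv_one_tmul (b : B) :
    boxRingEquiv hU i hi ((1 : A) ⊗ₜ[k] b) = curveToSections (c := c) A U (i.symm b) := by
  have := (CommRingCat.isPushout_tensorProduct k A B).inr_isoIsPushout_hom _ _
    (isPushout_preimageOpen_alg (c := c) (A := A) hU i hi)
  exact congrArg (fun φ : CommRingCat.of B ⟶ _ => φ.hom b) this

theorem boxRingEquiv_tmul (a : A) (b : B) :
    boxRingEquiv hU i hi (a ⊗ₜ[k] b) =
      baseToSections (c := c) A (preimageOpen (c := c) A U) a *
        curveToSections (c := c) A U (i.symm b) := by
  rw [← boxRingEquiv_tmul_one hU i hi, ← boxRingEquiv_one_tmul hU i hi, ← map_mul,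
    Algebra.TensorProduct.tmul_mul_tmul, mul_one, one_mul]

theorem boxRingEquiv_symm_baseToSections (a : A) :
    (boxRingEquiv hU i hi).symm (baseToSections (c := c) A (preimageOpen (c := c) A U) a) =
      a ⊗ₜ[k] (1 : B) := by
  rw [← boxRingEquiv_tmul_one hU i hi, RingEquiv.symm_apply_apply]

theorem boxRingEquiv_symm_curveToSections (f : Γ(C, U)) :
    (boxRingEquiv hU i hi).symm (curveToSections (c := c) A U f) = (1 : A) ⊗ₜ[k] i f := by
  rw [RingEquiv.symm_apply_eq, boxRingEquiv_one_tmul, RingEquiv.symm_apply_apply]

end Equiv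

end

end Fermat.Agent.S25.H566
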