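import Mathlib
import Fermat.Agent.S25.H10.DegreeDefs
import Fermat.Agent.S25.H565.DegreeD3
import Fermat.Agent.S25.H671.UnitH0

/-!
# S25 / DEGREE, leaf D5-c (helper566): `h⁰ ≤ 1` in degree `≤ 0`

Exact statement `finrank_H0_le_one` of `H10/DegreeSkel.lean`, from D5-a/b (helper565,
`H565/DegreeD3.lean`) and D6-a (helper671, `H671/UnitH0.lean`).

* `H0EquivOfBijective` : a bijective morphism of gluing data induces a linear equivalence on
  `Ȟ⁰`;
* `finrank_H0_eq_of_bijective`;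
* `finrank_H0_le_one` (D5-c);
* `finrank_H0_eq_one_of_section` : degree `0` and a nonzero section ⇒ `h⁰ = 1`;
* `H0_eq_bot_of_degree_neg` : negative degree ⇒ `Ȟ⁰ = 0`.
-/

set_option autoImplicit false

universe u

open scoped TensorProduct

namespace Fermat.Agent.S25.H566

open Fermat.Agent.S25 Fermat.Agent.S25.H10

section General

variable {A R₀ R₁ R₀₁ : Type u} [CommRing A] [CommRing R₀] [CommRing R₁]
    [CommRing R₀₁] [Algebra A R₀] [Algebra A R₁] [Algebra A R₀₁] [Algebra R₀ R₀₁]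
    [Algebra R₁ R₀₁] [IsScalarTower A R₀ R₀₁] [IsScalarTower A R₁ R₀₁]

/-- The map induced on `Ȟ⁰` by a morphism of gluing data. -/
noncomputable def GDHomH0 {G G' : GlueDatum A R₀ R₁ R₀₁} (f : GDHom G G') :
    G.H0 →ₗ[A] G'.H0 :=
  f.map01.restrict (p := G.H0) (q := G'.H0) (fun s hs => by
    rw [LinearMap.mem_ker] at hs ⊢
    rw [GDHom.cech_map01, hs, map_zero])

theorem GDHomH0_coe {G G' : GlueDatum A R₀ R₁ R₀₁} (f : GDHom G G') (s : G.H0) :
    ((GDHomH0 f s : G'.H0) : G'.N₀ × G'.N₁) = f.map01 (s : G.N₀ × G.N₁) := rfl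

theorem map01_apply_eq {G G' : GlueDatum A R₀ R₁ R₀₁} (f : GDHom G G') (s : G.N₀ × G.N₁) :
    f.map01 s = (f.f₀ s.1, f.f₁ s.2) := rfl

theorem GDHomH0_bijective {G G' : GlueDatum A R₀ R₁ R₀₁} (f : GDHom G G')
    (hf : f.Bijective) : Function.Bijective (GDHomH0 f) := by
  obtain ⟨h₀, h₁, h₀₁⟩ := hf
  constructor
  · intro s t hst
    apply Subtype.ext
    have h := congrArg (fun z : G'.H0 => (z : G'.N₀ × G'.N₁)) hst
    simp only [GDHomH0_coe, map01_apply_eq] at h
    exact Prod.ext (h₀.1 (congrArg Prod.fst h)) (h₁.1 (congrArg Prod.snd h))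
  · rintro ⟨⟨a, b⟩, hab⟩
    obtain ⟨a', rfl⟩ := h₀.2 a
    obtain ⟨b', rfl⟩ := h₁.2 b
    have hmem : (a', b') ∈ G.H0 := by
      rw [LinearMap.mem_ker] at hab ⊢
      apply h₀₁.1
      rw [map_zero, ← GDHom.cech_map01]
      exact hab
    exact ⟨⟨(a', b'), hmem⟩, Subtype.ext rfl⟩

/-- A bijective morphism of gluing data induces a linear equivalence on `Ȟ⁰`. -/
noncomputable def H0EquivOfBijective {G G' : GlueDatum A R₀ R₁ R₀₁} (f : GDHom G G')
    (hf : f.Bijective) : G.H0 ≃ₗ[A] G'.H0 :=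
  LinearEquiv.ofBijective (GDHomH0 f) (GDHomH0_bijective f hf)

theorem finrank_H0_eq_of_bijective {G G' : GlueDatum A R₀ R₁ R₀₁} (f : GDHom G G')
    (hf : f.Bijective) : Module.finrank A G.H0 = Module.finrank A G'.H0 :=
  (H0EquivOfBijective f hf).finrank_eq

end General

section Curve

variable {k : Type u} [Field k] {B₀ B₁ B₀₁ : Type u} [CommRing B₀] [CommRing B₁] [CommRing B₀₁]
  [Algebra k B₀] [Algebra k B₁] [Algebra k B₀₁] [Algebra B₀ B₀₁] [Algebra B₁ B₀₁]
  [IsScalarTower k B₀ B₀₁] [IsScalarTower k B₁ B₀₁]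
  {x : B₀} {y : B₁} {e : B₁ →ₐ[k] k}

/-- Degree `0` and a nonzero section: `h⁰ = 1`. -/
theorem finrank_H0_eq_one_of_section [IsAlgClosed k] (hC : IsCurveChart k B₀ B₁ B₀₁ x y e)
    {K : Type u} [Field K] [Algebra k K] (G : CurveGD k B₀ B₁ B₀₁ K) (hG : G.degree = 0)
    (s : G.H0) (hs : s ≠ 0) : Module.finrank K G.H0 = 1 := by
  have hb := H565.D.ofSection_bijective hC G hG s hs
  rw [← finrank_H0_eq_of_bijective (GDHom.ofSection G s) hb]
  exact H671.finrank_unit_H0 hC K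

/-- Negative degree: no nonzero sections. -/
theorem H0_eq_bot_of_degree_neg [IsAlgClosed k] (hC : IsCurveChart k B₀ B₁ B₀₁ x y e)
    {K : Type u} [Field K] [Algebra k K] (G : CurveGD k B₀ B₁ B₀₁ K) (hG : G.degree < 0)
    (s : G.H0) : s = 0 := by
  by_contra hs
  have := H565.D.degree_nonneg_of_section hC G s hs
  omega

/-- D5-c. `h⁰ ≤ 1` in degree 0, `h⁰ = 0` in negative degree. -/
theorem finrank_H0_le_one [IsAlgClosed k] (hC : IsCurveChart k B₀ B₁ B₀₁ x y e)
    {K : Type u} [Field K] [Algebra k K] (G : CurveGD k B₀ B₁ B₀₁ K) (hG : G.degree ≤ 0) :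
    Module.finrank K G.H0 ≤ 1 := by
  by_cases h : ∀ s : G.H0, s = 0
  · have : Subsingleton G.H0 := ⟨fun a b => by rw [h a, h b]⟩
    rw [Module.finrank_zero_of_subsingleton]
    exact Nat.zero_le 1
  · push Not at h
    obtain ⟨s, hs⟩ := h
    have hdeg : G.degree = 0 :=
      le_antisymm hG (H565.D.degree_nonneg_of_section hC G s hs)
    exact (finrank_H0_eq_one_of_section hC G hdeg s hs).le

end Curve

end Fermat.Agent.S25.H566
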